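import Mathlib.NumberTheory.RamificationInertia.Galois
import Mathlib.NumberTheory.NumberField.Basic
import Mathlib.FieldTheory.Galois.IsGaloisGroup
import Mathlib.RingTheory.DedekindDomain.AdicValuation
import Mathlib.RingTheory.Ideal.Quotient.HasFiniteQuotients
import Mathlib.RingTheory.Valuation.ValuationSubring
import Mathlib.RingTheory.IntegralClosure.IntegrallyClosed
import Mathlib.Algebra.GCDMonoid.IntegrallyClosed
import Mathlib.RingTheory.Bezout
import Mathlib.RingTheory.Valuation.LocalSubring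

/-!
# The inertia field is unramified

For a finite Galois extension `L/ℚ` and a valuation subring `B` of `L` over a prime `q`, an
element fixed by the inertia group has valuation in `v(q)^ℤ`.
-/

set_option autoImplicit false

open scoped NumberField Pointwise
open NumberField IsDedekindDomain

namespace Fermat.Agent.EC.Inertia

variable {L : Type*} [Field L] [NumberField L]

omit [NumberField L] in
theorem mem_of_ringOfIntegers (B : ValuationSubring L) (y : 𝓞 L) : (y : L) ∈ B := by
  obtain ⟨z, hz⟩ :=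
    (IsIntegrallyClosed.isIntegral_iff (R := B) (K := L)).1 (y.isIntegral_coe.tower_top)
  rw [show ((y : L)) = (z : L) from hz.symm]
  exact z.2

/-- The centre of a valuation subring in the ring of integers. -/
def centre (B : ValuationSubring L) : Ideal (𝓞 L) where
  carrier := {y | (y : L) ∈ B.nonunits}
  add_mem' := fun {a b} ha hb => by
    simp only [Set.mem_ofPred_eq, map_add, B.mem_nonunits_iff] at ha hb ⊢
    exact B.valuation.map_add_lt ha hb
  zero_mem' := by simp [B.mem_nonunits_iff]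
  smul_mem' := fun a b hb => by
    simp only [Set.mem_ofPred_eq, smul_eq_mul, map_mul, B.mem_nonunits_iff] at hb ⊢
    exact (mul_le_of_le_one_left zero_le
      ((B.valuation_le_one_iff _).2 (mem_of_ringOfIntegers B a))).trans_lt hb

omit [NumberField L] in
@[simp]
theorem mem_centre {B : ValuationSubring L} {y : 𝓞 L} :
    y ∈ centre B ↔ (y : L) ∈ B.nonunits := Iff.rfl

instance (B : ValuationSubring L) : (centre B).IsPrime where
  ne_top' h := by
    have h1 : (1 : 𝓞 L) ∈ centre B := h ▸ Submodule.mem_top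
    simp [B.mem_nonunits_iff] at h1
  mem_or_mem' {a b} hab := by
    simp only [mem_centre, map_mul, B.mem_nonunits_iff] at hab ⊢
    by_contra! h
    exact absurd hab (not_lt.2 (one_le_mul h.1 h.2))

/-- The inertia field of a prime is unramified over `ℤ`. -/
theorem ramificationIdx_inertiaField [IsGalois ℚ L] (P : Ideal (𝓞 L)) [P.IsPrime] (hP : P ≠ ⊥) :
    (P.under (𝓞 (FixedPoints.intermediateField (P.inertia (L ≃ₐ[ℚ] L)) :
      IntermediateField ℚ L))).ramificationIdx ℤ = 1 := by
  set H := P.inertia (L ≃ₐ[ℚ] L) with hH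
  set E : IntermediateField ℚ L := FixedPoints.intermediateField H with hE
  have : IsGaloisGroup H E L := IsGaloisGroup.subgroup (L ≃ₐ[ℚ] L) ℚ L H
  have : P.IsMaximal := Ideal.IsPrime.isMaximal ‹_› hP
  set PE := P.under (𝓞 E) with hPE
  have hpZ : P.under ℤ ≠ ⊥ := mt Ideal.eq_bot_of_comap_eq_bot hP
  have : (P.under ℤ).IsMaximal := Ideal.IsMaximal.under ℤ P
  have : PE.IsMaximal := Ideal.IsMaximal.under (𝓞 E) P
  have : Finite (ℤ ⧸ P.under ℤ) := Ring.HasFiniteQuotients.finiteQuotient hpZ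
  have : Finite ((𝓞 E) ⧸ PE) :=
    Ring.HasFiniteQuotients.finiteQuotient (mt Ideal.eq_bot_of_comap_eq_bot hP)
  have : IsGaloisGroup H (𝓞 E) (𝓞 L) := IsGaloisGroup.of_isFractionRing H (𝓞 E) (𝓞 L) E L
  have e1 := Ideal.card_inertia_eq_ramificationIdxIn (G := L ≃ₐ[ℚ] L) (P.under ℤ) P
  have e2 := Ideal.card_inertia_eq_ramificationIdxIn (G := H) PE P
  rw [Ideal.ramificationIdxIn_eq_ramificationIdx _ P (L ≃ₐ[ℚ] L)] at e1
  rw [Ideal.ramificationIdxIn_eq_ramificationIdx _ P H] at e2
  have e3 : P.inertia H = ⊤ := top_le_iff.1 fun σ _ x => σ.2 x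
  rw [e3, Subgroup.card_top] at e2
  rw [← hH] at e1
  have htower := Ideal.ramificationIdx_tower (R := ℤ) PE P
  rw [← e1, e2, right_eq_mul₀ (Ideal.ramificationIdx_pos P (𝓞 E)).ne'] at htower
  exact htower

/-- An element fixed by the inertia group of a valuation subring over `q` has valuation in
`v(q)^ℤ`. -/
theorem exists_zpow_of_fixed [IsGalois ℚ L] (B : ValuationSubring L) {q : ℕ} (hq : q.Prime)
    (hB : (q : L) ∈ B.nonunits) {x : L} (hx : x ≠ 0)
    (hfix : ∀ τ : L ≃ₐ[ℚ] L, (∀ y : 𝓞 L, τ y - y ∈ B.nonunits) → τ x = x) :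
    ∃ k : ℤ, B.valuation x = B.valuation (q : L) ^ k := by
  set P := centre B
  have hqP : (q : 𝓞 L) ∈ P := mem_centre.2 (by simpa using hB)
  have hq0 : (q : L) ≠ 0 := Nat.cast_ne_zero.2 hq.ne_zero
  have hP : P ≠ ⊥ := fun h => by
    rw [h, Submodule.mem_bot, Nat.cast_eq_zero] at hqP
    exact hq.ne_zero hqP
  set E : IntermediateField ℚ L :=
    FixedPoints.intermediateField (P.inertia (L ≃ₐ[ℚ] L)) with hE
  have hxE : x ∈ E := fun τ => hfix τ.1 fun y => τ.2 y
  set PE := P.under (𝓞 E) with hPE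
  have hPE0 : PE ≠ ⊥ := mt Ideal.eq_bot_of_comap_eq_bot hP
  let v : HeightOneSpectrum (𝓞 E) := ⟨PE, inferInstance, hPE0⟩
  have hqPE : (q : 𝓞 E) ∈ PE := by
    rw [hPE, Ideal.mem_comap, map_natCast]
    exact hqP
  have hspan : P.under ℤ = Ideal.span {(q : ℤ)} := by
    have hmax : (Ideal.span {(q : ℤ)}).IsMaximal :=
      PrincipalIdealRing.isMaximal_of_irreducible (Nat.prime_iff_prime_int.mp hq).irreducible
    refine (hmax.eq_of_le (Ideal.comap_ne_top _ (Ideal.IsPrime.ne_top inferInstance)) ?_).symm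
    rw [Ideal.span_singleton_le_iff_mem, Ideal.mem_comap, map_natCast]
    exact hqP
  have : PE.LiesOver (P.under ℤ) := ⟨by rw [hPE, Ideal.under_under]⟩
  have hvq : v.intValuation (q : 𝓞 E) = WithZero.exp (-1 : ℤ) := by
    rw [v.intValuation_eq_exp_neg_multiplicity (Nat.cast_ne_zero.2 hq.ne_zero)]
    have hmap : (P.under ℤ).map (algebraMap ℤ (𝓞 E)) = Ideal.span {(q : 𝓞 E)} := by
      rw [hspan, Ideal.map_span, Set.image_singleton, map_natCast]
    have h1 := Ideal.IsDedekindDomain.ramificationIdx_eq_multiplicity (P.under ℤ) PE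
      (by rw [hmap, Ne, Ideal.span_singleton_eq_bot]; exact Nat.cast_ne_zero.2 hq.ne_zero)
    rw [ramificationIdx_inertiaField P hP, hmap] at h1
    rw [show v.asIdeal = PE from rfl, ← h1, Nat.cast_one]
  have hunit : ∀ a : 𝓞 E, a ∉ PE → B.valuation ((a : E) : L) = 1 := fun a ha => by
    refine le_antisymm ((B.valuation_le_one_iff _).2 ?_) (not_lt.1 fun h => ha ?_)
    · exact mem_of_ringOfIntegers B (algebraMap (𝓞 E) (𝓞 L) a)
    · exact B.mem_nonunits_iff.2 h
  have hxE0 : (⟨x, hxE⟩ : E) ≠ 0 := by simpa [Subtype.ext_iff] using hx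
  set j := WithZero.log (v.valuation E (⟨x, hxE⟩ : E)) with hj
  set y : E := ⟨x, hxE⟩ * (q : E) ^ j with hy
  have hvy : v.valuation E y = 1 := by
    have hvq' : v.valuation E (q : E) = WithZero.exp (-1 : ℤ) := by
      rw [← map_natCast (algebraMap (𝓞 E) E), v.valuation_of_algebraMap, hvq]
    rw [hy, map_mul, map_zpow₀, hvq', ← WithZero.exp_zsmul,
      ← WithZero.exp_log ((v.valuation E).ne_zero_iff.2 hxE0), ← hj, ← WithZero.exp_add]
    simp
  obtain ⟨a, ⟨d, hd⟩, hyd⟩ := v.exists_primeCompl_mul_eq_of_integer y hvy.le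
  have ha : a ∉ PE := by
    rw [show PE = v.asIdeal from rfl, ← HeightOneSpectrum.valuation_eq_one_iff_notMem (K := E),
      ← hyd, map_mul, hvy, one_mul, HeightOneSpectrum.valuation_eq_one_iff_notMem]
    exact hd
  have hyL : B.valuation (x * (q : L) ^ j) = 1 := by
    have h1 : ((y : E) : L) * ((d : E) : L) = ((a : E) : L) := congrArg Subtype.val hyd
    have h2 := congrArg B.valuation h1
    rw [map_mul, hunit d hd, hunit a ha, mul_one] at h2
    rw [← h2]
    congr 1
  refine ⟨-j, ?_⟩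
  rw [map_mul, map_zpow₀] at hyL
  rw [zpow_neg, eq_inv_of_mul_eq_one_left hyL]

end Fermat.Agent.EC.Inertia
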