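import Mathlib.RingTheory.Valuation.ValuationSubring
import Mathlib.FieldTheory.IsAlgClosed.Basic
import Mathlib.Algebra.Polynomial.Identities
import Fermat.Prelude.Def_FLTPrelim_Ramification

/-!
# Lifting residual roots in an algebraically closed valued field

In an algebraically closed field, every residual root of a polynomial over a valuation subring
lifts to a root; a simple root is the only root with its residue, so it is fixed by every inertia
element fixing the coefficients.
-/

set_option autoImplicit false

open IsLocalRing Polynomial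
open scoped Pointwise

namespace Fermat.Agent.EC.Inertia

variable {K : Type*} [Field K] (A : ValuationSubring K)

theorem residue_eq_iff_sub_mem_nonunits {a b : A} :
    residue A a = residue A b ↔ ((a : K) - b) ∈ A.nonunits := by
  rw [← sub_eq_zero, ← map_sub, residue_eq_zero_iff, ← ValuationSubring.coe_mem_nonunits_iff]
  rfl

/-- Over an algebraically closed field a residual root lifts to a root in the valuation
subring. -/
theorem exists_root_residue_eq [IsAlgClosed K] (f : A[X]) (hf : f.map (residue A) ≠ 0)
    {α : ResidueField A} (hα : (f.map (residue A)).IsRoot α) :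
    ∃ a : A, f.IsRoot a ∧ residue A a = α := by
  classical
  -- descent on the degree: strip roots in `A`, and roots outside `A` do not affect the residue
  have key : ∀ (n : ℕ) (g : A[X]), g.natDegree = n → g.map (residue A) ≠ 0 →
      (g.map (residue A)).IsRoot α → ∃ a : A, g.IsRoot a ∧ residue A a = α := by
    intro n
    induction n using Nat.strong_induction_on with
    | _ n ih =>
      intro g hgn hg0 hgα
      have hg : g ≠ 0 := fun h => hg0 (by rw [h, Polynomial.map_zero])
      rcases Nat.eq_zero_or_pos n with rfl | hn
      · obtain ⟨c, rfl⟩ := natDegree_eq_zero.1 hgn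
        rw [Polynomial.map_C, IsRoot, eval_C] at hgα
        exact absurd (by rw [Polynomial.map_C, hgα, C_0]) hg0
      obtain ⟨r, hr⟩ : ∃ r : K, (g.map A.subtype).IsRoot r :=
        IsAlgClosed.exists_root _ (by
          rw [degree_map_eq_of_injective Subtype.val_injective, degree_eq_natDegree hg, hgn]
          exact_mod_cast hn.ne')
      by_cases hrA : r ∈ A
      · have hra : g.IsRoot ⟨r, hrA⟩ := by
          exact IsRoot.of_map (f := A.subtype) hr Subtype.val_injective
        by_cases hres : residue A ⟨r, hrA⟩ = α
        · exact ⟨_, hra, hres⟩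
        obtain ⟨h, rfl⟩ := dvd_iff_isRoot.2 hra
        rw [Polynomial.map_mul, Polynomial.map_sub, map_X, Polynomial.map_C] at hg0 hgα
        have hh0 : h ≠ 0 := right_ne_zero_of_mul hg
        rw [natDegree_mul (X_sub_C_ne_zero _) hh0, natDegree_X_sub_C] at hgn
        obtain ⟨a, ha, hares⟩ := ih h.natDegree (by omega) h rfl (right_ne_zero_of_mul hg0)
          (by
            rw [IsRoot, eval_mul, eval_sub, eval_X, eval_C] at hgα
            exact (mul_eq_zero.1 hgα).resolve_left (sub_ne_zero.2 (Ne.symm hres)))
        exact ⟨a, by simp [IsRoot.def, ha.eq_zero], hares⟩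
      · -- a root outside `A`: `g = (1 - r⁻¹ X) * h` with `h` integral
        have hs : r⁻¹ ∈ A := (A.mem_or_inv_mem r).resolve_left hrA
        have hr0 : r ≠ 0 := fun h => hrA (h ▸ A.zero_mem)
        obtain ⟨u, hu⟩ := dvd_iff_isRoot.2 hr
        set h' : K[X] := C (-r) * u with hh'
        have hgh : g.map A.subtype = (1 - C r⁻¹ * X) * h' := by
          have h1 : C r⁻¹ * C r = (1 : K[X]) := by rw [← C_mul, inv_mul_cancel₀ hr0, C_1]
          rw [hu, hh', C_neg]
          linear_combination (-(X : K[X]) * u) * h1
        have hint : ∀ i, h'.coeff i ∈ A := by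
          intro i
          induction i with
          | zero =>
            have h0 := congrArg (coeff · 0) hgh
            simp only [coeff_map, mul_coeff_zero, coeff_sub, coeff_one_zero] at h0
            simp at h0
            rw [← h0]
            exact SetLike.coe_mem _
          | succ i hi =>
            have h0 := congrArg (coeff · (i + 1)) hgh
            simp only [coeff_map, sub_mul, one_mul, coeff_sub, mul_assoc, coeff_C_mul,
              coeff_X_mul] at h0
            rw [eq_sub_iff_add_eq] at h0
            rw [← h0]
            exact A.add_mem _ _ (SetLike.coe_mem _) (A.mul_mem _ _ hs hi)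
        obtain ⟨h, hmap⟩ : h' ∈ lifts A.subtype :=
          (lifts_iff_coeff_lifts h').2 fun i => ⟨⟨_, hint i⟩, rfl⟩
        have hh : h.map A.subtype = h' := hmap
        have hg' : g = (1 - C ⟨r⁻¹, hs⟩ * X) * h := by
          apply map_injective A.subtype Subtype.val_injective
          simp [hgh, hh, Polynomial.map_sub]
        have hsres : residue A ⟨r⁻¹, hs⟩ = 0 := by
          rw [residue_eq_zero_iff, ← ValuationSubring.coe_mem_nonunits_iff,
            ValuationSubring.mem_nonunits_iff, map_inv₀]
          exact inv_lt_one_of_one_lt₀ (not_le.1 (mt (A.valuation_le_one_iff r).1 hrA))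
        have hdeg : h.natDegree < n := by
          have h1 : (g.map A.subtype).natDegree = n := by
            rw [natDegree_map_eq_of_injective (f := A.subtype) Subtype.val_injective, hgn]
          have hu0 : u ≠ 0 := by
            intro h0
            rw [h0, mul_zero] at hu
            rw [hu, natDegree_zero] at h1
            omega
          rw [hu, natDegree_mul (X_sub_C_ne_zero _) hu0, natDegree_X_sub_C] at h1
          rw [← natDegree_map_eq_of_injective (f := A.subtype) Subtype.val_injective, hh, hh',
            natDegree_C_mul (neg_ne_zero.2 hr0)]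
          omega
        rw [hg', Polynomial.map_mul, Polynomial.map_sub, Polynomial.map_one, Polynomial.map_mul,
          Polynomial.map_C, hsres, C_0, zero_mul, sub_zero, one_mul] at hg0 hgα
        obtain ⟨a, ha, hares⟩ := ih h.natDegree hdeg h rfl hg0 hgα
        refine ⟨a, ?_, hares⟩
        rw [hg', IsRoot, eval_mul, ha.eq_zero, mul_zero]
  exact key _ f rfl hf hα

/-- Two roots with the same residue agree if the residual root is simple. -/
theorem eq_of_isRoot_of_residue_eq (f : A[X]) {a b : A} (ha : f.IsRoot a) (hb : f.IsRoot b)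
    (hab : residue A a = residue A b)
    (hsimple : (f.derivative.map (residue A)).eval (residue A a) ≠ 0) : a = b := by
  obtain ⟨c, hc⟩ := f.binomExpansion a (b - a)
  rw [add_sub_cancel, hb.eq_zero, ha.eq_zero, zero_add] at hc
  have hu : residue A (f.derivative.eval a + c * (b - a)) ≠ 0 := by
    rw [map_add, map_mul, map_sub, hab, sub_self, mul_zero, add_zero]
    rwa [eval_map, eval₂_at_apply] at hsimple
  have h0 : (f.derivative.eval a + c * (b - a)) * (b - a) = 0 := by linear_combination -hc
  rcases mul_eq_zero.1 h0 with h1 | h1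
  · exact absurd (by rw [h1, map_zero]) hu
  · exact (sub_eq_zero.1 h1).symm

section Inertia

variable {F : Type*} [Field F] [Algebra F K] {A} {σ : K ≃ₐ[F] K}

theorem apply_mem_iff (hσ : σ ∈ A.inertiaSubgroupIn F) (x : K) : σ x ∈ A ↔ x ∈ A := by
  obtain ⟨⟨τ, hτ⟩, -, rfl⟩ := hσ
  have h := (ValuationSubring.smul_mem_pointwise_smul_iff (g := τ) (S := A) (x := x))
  rw [MulAction.mem_stabilizer_iff.1 hτ] at h
  exact h

theorem residue_apply (hσ : σ ∈ A.inertiaSubgroupIn F) (a : A) :
    residue A ⟨σ a, (apply_mem_iff hσ _).2 a.2⟩ = residue A a := by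
  obtain ⟨τ, hτ, rfl⟩ := hσ
  exact DFunLike.congr_fun (MonoidHom.mem_ker.1 hτ) (residue A a)

theorem apply_sub_mem_nonunits (hσ : σ ∈ A.inertiaSubgroupIn F) {x : K} (hx : x ∈ A) :
    σ x - x ∈ A.nonunits :=
  (residue_eq_iff_sub_mem_nonunits A).1 (residue_apply hσ ⟨x, hx⟩)

/-- A simple residual root of a polynomial with fixed coefficients is fixed by inertia. -/
theorem apply_eq_of_simple_root (hσ : σ ∈ A.inertiaSubgroupIn F) (f : A[X])
    (hfix : ∀ i, σ (f.coeff i : K) = f.coeff i) {a : A} (ha : f.IsRoot a)
    (hsimple : (f.derivative.map (residue A)).eval (residue A a) ≠ 0) : σ (a : K) = a := by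
  have hb : f.IsRoot ⟨σ a, (apply_mem_iff hσ _).2 a.2⟩ := by
    apply IsRoot.of_map (f := A.subtype) ?_ Subtype.val_injective
    have h1 : (f.map A.subtype).map (σ : K →+* K) = f.map A.subtype := by
      ext i
      simp [coeff_map, hfix]
    rw [← h1]
    exact IsRoot.map (f := (σ : K →+* K)) (IsRoot.map (f := A.subtype) ha)
  exact congrArg Subtype.val
    (eq_of_isRoot_of_residue_eq A f hb ha (residue_apply hσ a)
      (by rwa [residue_apply hσ a]))

/-- An `n`-th root of a fixed unit is fixed, for `n` invertible in the residue field. -/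
theorem apply_eq_of_pow (hσ : σ ∈ A.inertiaSubgroupIn F) {n : ℕ}
    (hn : (n : ResidueField A) ≠ 0) {x : K} (hx : A.valuation x = 1)
    (hfix : σ (x ^ n) = x ^ n) : σ x = x := by
  have hxA : x ∈ A := (A.valuation_le_one_iff x).1 hx.le
  refine apply_eq_of_simple_root hσ (X ^ n - C ⟨x ^ n, pow_mem hxA n⟩) (fun i => ?_)
    (a := ⟨x, hxA⟩) ?_ ?_
  · simp only [coeff_sub, coeff_X_pow, coeff_C, AddSubgroupClass.coe_sub, map_sub]
    congr 1 <;> split_ifs <;> first | exact hfix | simp
  · simp [IsRoot.def]
  · have hx0 : residue A ⟨x, hxA⟩ ≠ 0 := by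
      rw [Ne, residue_eq_zero_iff, ← ValuationSubring.coe_mem_nonunits_iff,
        ValuationSubring.mem_nonunits_iff, hx]
      exact lt_irrefl 1
    simp [derivative_X_pow, hn, hx0]

/-- Roots of unity of order invertible in the residue field are fixed by inertia. -/
theorem apply_eq_of_pow_eq_one (hσ : σ ∈ A.inertiaSubgroupIn F) {n : ℕ}
    (hn : (n : ResidueField A) ≠ 0) {x : K} (hx : x ^ n = 1) : σ x = x := by
  have hn0 : n ≠ 0 := by rintro rfl; exact hn Nat.cast_zero
  refine apply_eq_of_pow hσ hn ((pow_eq_one_iff_left hn0).1 ?_) (by rw [hx, map_one])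
  rw [← map_pow, hx, map_one]

/-- Hensel's lemma: a simple residual root lifts to a root in `A`, fixed by every inertia element
fixing the coefficients. -/
theorem exists_root_fixed [IsAlgClosed K] (f : A[X]) {α : ResidueField A}
    (hα : (f.map (residue A)).IsRoot α) (hsimple : (f.derivative.map (residue A)).eval α ≠ 0) :
    ∃ a : A, f.IsRoot a ∧ residue A a = α ∧
      ∀ σ ∈ A.inertiaSubgroupIn F, (∀ i, σ (f.coeff i : K) = f.coeff i) → σ (a : K) = a := by
  have hf : f.map (residue A) ≠ 0 := by
    intro h
    rw [← derivative_map, h, derivative_zero, eval_zero] at hsimple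
    exact hsimple rfl
  obtain ⟨a, ha, rfl⟩ := exists_root_residue_eq A f hf hα
  exact ⟨a, ha, rfl, fun σ hσ hfix => apply_eq_of_simple_root hσ f hfix ha hsimple⟩

end Inertia

end Fermat.Agent.EC.Inertia
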